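import Fermat.Agent.CuspidalC.Cusps
import Fermat.Agent.ModularFunctionField.FamilyPoly
import Fermat.Agent.ModularAnalytic.InField
import Fermat.Prelude.Def_ModularCurve_ModularUnit

/-!
# The modular unit `Δ(q)/Δ(q^N)` and its divisor

`uEl N` lies in the function field, it and its inverse are integral over `ℚ̄[j]`, and for prime `N`
its divisor is `(N - 1) (cuspZero - cuspInfty)`.
-/

set_option autoImplicit false

noncomputable section

open AlgebraicCurve (Place Divisor)
open Fermat.Agent.ModCurveGenus Fermat.Agent.ModularFunctionField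
open ModularCurve (coeffMap coeffEmb qExpand jqModC)
open scoped MatrixGroups Polynomial

namespace Fermat.Agent.CuspidalC

variable (N : ℕ) [NeZero N]

/-- The series `Δ(q)/Δ(q^N)` over a ring. -/
def unitSer (R : Type*) [CommRing R] : LaurentSeries R :=
  deltaC R * qExpand R N (deltaInvC R)

/-- The series of the unit is compatible with maps of rings. -/
theorem coeffMap_unitSer {R S : Type*} [CommRing R] [CommRing S] (f : R →+* S) :
    coeffMap f (unitSer N R) = unitSer N S := by
  simp only [unitSer, map_mul, coeffMap_qExpand', coeffMap_deltaC, coeffMap_deltaInvC]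

theorem deltaC_rat : deltaC ℚ = ModularCurve.deltaSeries := rfl

theorem unitSer_rat : unitSer N ℚ = ModularCurve.modularUnitSeries N := by
  have h : qExpand ℚ N (deltaInvC ℚ) = (ModularCurve.deltaSeriesN N)⁻¹ := by
    refine (inv_eq_of_mul_eq_one_right ?_).symm
    rw [ModularCurve.deltaSeriesN, ← deltaC_rat, ← map_mul, deltaC_mul_deltaInvC, map_one]
  rw [unitSer, h, deltaC_rat, ModularCurve.modularUnitSeries]

theorem coeffEmb_modularUnitSeries :
    coeffEmb Qb (ModularCurve.modularUnitSeries N) = unitSer N Qb := by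
  rw [← unitSer_rat, coeffEmb, coeffMap_unitSer]

/-- The substitution of the top triangle is `q ↦ q ^ (N ^ 2)`. -/
theorem rootSubst_top {R : Type*} [CommRing R] (u : Rˣ) (x : LaurentSeries R) :
    rootSubst u 1 (Tri.top : Tri N) x = qExpand R (N * N * 1) x := by
  show subst (u ^ (0 * N * 1)) (N * N * 1) x = _
  rw [subst_congr (v := 1) (l := N * N * 1) (by simp) rfl, subst_one]

/-- The upper left entry of the top triangle is `N`. -/
theorem top_a_eq : (Tri.top : Tri N).a = N := rfl
theorem top_d_eq : (Tri.top : Tri N).d = 1 := rfl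

theorem unitInvSeries_top {R : Type*} [CommRing R] (u : Rˣ) :
    unitInvSeries u 1 N (Tri.top : Tri N) = qExpand R N (unitSer N R) := by
  rw [unitInvSeries, rootSubst_top, top_d_eq, Nat.cast_one, one_pow, map_one, one_mul, unitSer,
    map_mul, ModularCurve.qExpand_qExpand,
    ModularCurve.qExpand_congr (R := R) (show N * N * 1 = N * N by rw [mul_one]), mul_comm]

theorem act_top {γ : SL(2, ℤ)} (hγ : γ ∈ CongruenceSubgroup.Gamma0 N) :
    Tri.act γ (Tri.top : Tri N) = Tri.top := by
  refine jRoot_injective (isPrimitiveRoot_rootUnit N) 1 (mul_one N) ?_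
  refine (hasExp_jRoot 1 (mul_one N) _).unique (NeZero.ne N)
    ((hasExp_jRoot 1 (mul_one N) (Tri.top : Tri N)).congr fun τ => ?_)
  rw [← ModularAnalytic.jN_smul N γ τ, ModularAnalytic.jN_smul_of_mem hγ τ]
  rfl

/-- `Δ(q)/Δ(q^N)` lies in the function field of `X₀(N)`. -/
theorem unitSer_mem : unitSer N Qb ∈ ModularCurve.modularFunctionFieldBar N := by
  have hs : HasExp N (unitInvFun (Tri.top : Tri N))
      (qExpand ℂ N (coeffMap iotaC (unitSer N Qb))) := by
    rw [coeffMap_unitSer, ← unitInvSeries_top N (rootUnit N)]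
    exact hasExp_unitInvFun 1 (mul_one N) _
  obtain ⟨x, hx, hxs⟩ := ModularAnalytic.mem_functionField N iotaC
    (unitInvFun (Tri.top : Tri N)) (mdiff_unitInvFun _)
    (fun γ hγ τ => by rw [unitInvFun_smul, act_top N hγ])
    (fun γ => ⟨_, (hasExp_unitInvFun 1 (mul_one N) (Tri.act γ (Tri.top : Tri N))).congr
      fun τ => (unitInvFun_smul γ _ τ).symm⟩) hs
    (fun i => by
      rw [← coeffMap_qExpand' iotaC, ModularCurve.coeffMap_coeff]
      exact ⟨_, rfl⟩)
  have hx' : x = unitSer N Qb :=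
    ModularFunctionField.coeffMap_injective iotaC iotaC_injective
      (ModularCurve.qExpand_injective (R := ℂ) N hxs)
  exact hx' ▸ hx

/-- `Δ(q)/Δ(q^N)` in the function field. -/
def uEl : FN N := ⟨unitSer N Qb, unitSer_mem N⟩

/-- The expansion of the unit at `∞`. -/
theorem coe_uEl : ((uEl N : FN N) : LaurentSeries Qb) = unitSer N Qb := rfl

/-- The leading coefficient of the unit is `1`. -/
theorem unitSer_coeff_self : (unitSer N Qb).coeff (1 - (N : ℤ)) = 1 := by
  rw [← coeffEmb_modularUnitSeries, coeffEmb, ModularCurve.coeffMap_coeff,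
    ModularCurve.coeff_modularUnitSeries_self, map_one]

/-- The series of the unit is nonzero. -/
theorem unitSer_ne_zero : unitSer N Qb ≠ 0 := fun h => by
  have := unitSer_coeff_self N
  rw [h] at this
  simp at this

/-- The unit is nonzero. -/
theorem uEl_ne_zero : uEl N ≠ 0 := fun h => unitSer_ne_zero N (congrArg Subtype.val h)

theorem ord_uEl_cuspInfty : (cuspInfty N).ord (uEl N) = 1 - (N : ℤ) := by
  rw [ord_cuspInfty, coe_uEl]
  refine le_antisymm (HahnSeries.order_le_of_coeff_ne_zero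
    (by rw [unitSer_coeff_self]; exact one_ne_zero)) (le_of_not_gt fun hlt => ?_)
  refine HahnSeries.coeff_order_eq_zero.not.mpr (unitSer_ne_zero N) ?_
  generalize (unitSer N Qb).order = k at hlt ⊢
  rw [← coeffEmb_modularUnitSeries, coeffEmb, ModularCurve.coeffMap_coeff,
    ModularCurve.coeff_modularUnitSeries_of_lt N hlt, map_zero]

/-- The root of unity `rootUnit N` comes from `ℚ̄`. -/
theorem exists_rootUnit_preimage :
    ∃ z : Qbˣ, Units.map (iotaC : Qb →* ℂ) z = rootUnit N := by
  have : NeZero (N : Qb) := ⟨Nat.cast_ne_zero.mpr (NeZero.ne N)⟩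
  obtain ⟨w, hw⟩ := HasEnoughRootsOfUnity.exists_primitiveRoot Qb N
  have hw' : IsPrimitiveRoot (iotaC w) N := hw.map_of_injective iotaC_injective
  have h1 : ((rootUnit N : ℂˣ) : ℂ) ^ N = 1 :=
    (IsPrimitiveRoot.coe_units_iff.mpr (isPrimitiveRoot_rootUnit N)).pow_eq_one
  obtain ⟨i, -, hi⟩ := hw'.eq_pow_of_pow_eq_one h1
  refine ⟨(hw.isUnit (NeZero.ne N)).unit ^ i, Units.ext ?_⟩
  rw [map_pow, Units.val_pow_eq_pow_val, ← hi]
  rfl

/-- A root of a family polynomial in the parameter `q_N` gives an integral element of the field. -/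
theorem integral_of_root {P : Polynomial Qb[X]} (hP : P.Monic) (f : FN N)
    (h : P.eval₂ (evalJT Qb N) (qExpand Qb N (f : LaurentSeries Qb)) = 0) :
    (P.map (Polynomial.aeval (jEl N)).toRingHom).eval f = 0 ∧ P.Monic := by
  refine ⟨Subtype.ext (ModularCurve.qExpand_injective (R := Qb) N ?_), hP⟩
  rw [ZeroMemClass.coe_zero, map_zero, ← h, Polynomial.eval_map]
  set e : FN N →+* LaurentSeries Qb :=
    (qExpand Qb N).comp (ModularCurve.modularFunctionFieldBar N).val.toRingHom with he
  show e _ = P.eval₂ (evalJT Qb N) (e f)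
  rw [Polynomial.hom_eval₂]
  congr 1
  refine Polynomial.ringHom_ext (fun c => ?_) ?_
  · simp only [RingHom.comp_apply, AlgHom.toRingHom_eq_coe, RingHom.coe_coe, Polynomial.aeval_C,
      evalJT_C, he]
    show qExpand Qb N (algebraMap Qb (LaurentSeries Qb) c) = _
    rw [ModularCurve.algebraMap_laurentSeries_eq_single, ← HahnSeries.C_apply,
      ModularCurve.qExpand_C]
  · simp only [RingHom.comp_apply, AlgHom.toRingHom_eq_coe, RingHom.coe_coe, Polynomial.aeval_X,
      evalJT_X, he]
    show qExpand Qb N ((jEl N : FN N) : LaurentSeries Qb) = jT Qb N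
    rw [coe_jEl, coeffEmb, ← ModularCurve.jqModC_rat, coeffMap_jqC]
    rfl

/-- A root of a monic polynomial over `ℚ̄[j]` is regular where `j` is. -/
theorem ord_nonneg_of_root {P : Polynomial Qb[X]} (hP : P.Monic) {f : FN N}
    (h : (P.map (Polynomial.aeval (jEl N)).toRingHom).eval f = 0) {v : Place Qb (FN N)}
    (hv : 0 ≤ v.ord (jEl N)) : 0 ≤ v.ord f := by
  rw [← FFPlaces.mem_iff] at hv ⊢
  set φ : Qb[X] →+* v.toValuationSubring :=
    (Polynomial.aeval (R := Qb) (⟨jEl N, hv⟩ : v.toValuationSubring)).toRingHom with hφ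
  have hcomp : (algebraMap v.toValuationSubring (FN N)).comp φ
      = (Polynomial.aeval (jEl N)).toRingHom := by
    refine Polynomial.ringHom_ext (fun c => ?_) ?_
    · simp [hφ]
    · simp [hφ]
  have hint : IsIntegral v.toValuationSubring f := by
    refine ⟨P.map φ, hP.map φ, ?_⟩
    rw [Polynomial.eval₂_map, hcomp, ← Polynomial.eval_map]
    exact h
  obtain ⟨y, rfl⟩ := IsIntegrallyClosed.isIntegral_iff.mp hint
  exact y.2

theorem exists_monic_roots : ∃ P Q : Polynomial Qb[X], P.Monic ∧ Q.Monic ∧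
    P.eval₂ (evalJT Qb N) (qExpand Qb N (unitSer N Qb)) = 0 ∧
    Q.eval₂ (evalJT Qb N)
      (qExpand Qb N (HahnSeries.C ((N : Qb) ^ 12) * (unitSer N Qb)⁻¹)) = 0 := by
  obtain ⟨z, hz⟩ := exists_rootUnit_preimage N
  have hexp : ∀ M : Tri N, HasExp N (unitInvFun M)
      (coeffMap iotaC (unitInvSeries z 1 N M)) := fun M => by
    rw [coeffMap_unitInvSeries, hz]
    exact hasExp_unitInvFun 1 (mul_one N) M
  have hexp' : ∀ M : Tri N, HasExp N (unitFun M)
      (coeffMap iotaC (unitSeries z 1 N M)) := fun M => by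
    rw [coeffMap_unitSeries, hz]
    exact hasExp_unitFun 1 (mul_one N) M
  obtain ⟨P, hP, -, hPmap, -⟩ := exists_familyPoly iotaC iotaC_injective unitInvFun
    (fun M => unitInvSeries z 1 N M) mdiff_unitInvFun hexp unitInvFun_smul
  obtain ⟨Q, hQ, -, hQmap, -⟩ := exists_familyPoly iotaC iotaC_injective unitFun
    (fun M => unitSeries z 1 N M) mdiff_unitFun hexp' unitFun_smul
  have hroot : ∀ (P : Polynomial Qb[X]) (s : Tri N → LaurentSeries Qb),
      P.map (evalJT Qb N) = ∏ M, (Polynomial.X - Polynomial.C (s M)) →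
        P.eval₂ (evalJT Qb N) (s Tri.top) = 0 := by
    intro P s h
    rw [← Polynomial.eval_map, h, Polynomial.eval_prod]
    exact Finset.prod_eq_zero (Finset.mem_univ (Tri.top : Tri N)) (by simp)
  refine ⟨P, Q, hP, hQ, ?_, ?_⟩
  · have := hroot P _ hPmap
    rwa [unitInvSeries_top] at this
  · have := hroot Q _ hQmap
    convert this using 2
    have h := unitSeries_mul_unitInvSeries z 1 N (Tri.top : Tri N)
    rw [unitInvSeries_top] at h
    rw [map_mul, map_inv₀, ModularCurve.qExpand_C, ← h, mul_inv_cancel_right₀]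
    exact (map_ne_zero_iff _ (ModularCurve.qExpand_injective (R := Qb) N)).mpr (unitSer_ne_zero N)

/-- The unit has neither zero nor pole where `j` is regular. -/
theorem ord_uEl_eq_zero {v : Place Qb (FN N)} (hv : 0 ≤ v.ord (jEl N)) : v.ord (uEl N) = 0 := by
  obtain ⟨P, Q, hP, hQ, hPu, hQu⟩ := exists_monic_roots N
  have h1 : 0 ≤ v.ord (uEl N) :=
    ord_nonneg_of_root N hP (integral_of_root N hP (uEl N) hPu).1 hv
  set g : FN N := algebraMap Qb (FN N) ((N : Qb) ^ 12) * (uEl N)⁻¹ with hg
  have hgc : (g : LaurentSeries Qb) = HahnSeries.C ((N : Qb) ^ 12) * (unitSer N Qb)⁻¹ := by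
    rw [hg, MulMemClass.coe_mul, IntermediateField.coe_algebraMap_apply,
      ModularCurve.algebraMap_laurentSeries_eq_single, ← HahnSeries.C_apply]
    rfl
  have h2 : 0 ≤ v.ord g :=
    ord_nonneg_of_root N hQ (integral_of_root N hQ g (by rw [hgc]; exact hQu)).1 hv
  have hc : algebraMap Qb (FN N) ((N : Qb) ^ 12) ≠ 0 :=
    (_root_.map_ne_zero _).mpr (pow_ne_zero _ (Nat.cast_ne_zero.mpr (NeZero.ne N)))
  rw [hg, v.ord_mul hc (inv_ne_zero (uEl_ne_zero N)), FFPlaces.ord_algebraMap, v.ord_inv] at h2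
  omega

variable [hN : Fact N.Prime]

/-- `(cuspZero) - (cuspInfty)` as a divisor. -/
def cuspDiv : Divisor Qb (FN N) :=
  Finsupp.single (cuspZero N) 1 - Finsupp.single (cuspInfty N) 1

/-- The cuspidal divisor has degree zero. -/
theorem degree_cuspDiv : Divisor.degree (cuspDiv N) = 0 := by
  simp [cuspDiv, deg_place]

theorem ord_uEl_cuspZero : (cuspZero N).ord (uEl N) = (N : ℤ) - 1 := by
  classical
  set a := (cuspZero N).ord (uEl N)
  set D : Divisor Qb (FN N) :=
    Finsupp.single (cuspZero N) a + Finsupp.single (cuspInfty N) (1 - (N : ℤ)) with hD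
  have hDv : ∀ v, D v = v.ord (uEl N) := by
    intro v
    rcases eq_or_ne v (cuspZero N) with rfl | h0
    · simp [hD, a, cuspZero_ne N]
    rcases eq_or_ne v (cuspInfty N) with rfl | hi
    · simp [hD, ord_uEl_cuspInfty, h0]
    · rw [ord_uEl_eq_zero N (ord_jEl_nonneg N h0 hi)]
      simp [hD, h0.symm, hi.symm]
  have h := FFPlaces.degree_divisorOf (finiteOverGen_FN N) (uEl_ne_zero N) D hDv
  simp [hD, deg_place] at h
  linarith

/-- The divisor of `Δ(q)/Δ(q^N)` is `(N - 1) ((0) - (∞))`. -/
theorem ord_uEl (v : Place Qb (FN N)) : v.ord (uEl N) = ((N : ℤ) - 1) * cuspDiv N v := by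
  classical
  rcases eq_or_ne v (cuspZero N) with rfl | h0
  · simp [cuspDiv, ord_uEl_cuspZero, cuspZero_ne N]
  rcases eq_or_ne v (cuspInfty N) with rfl | hi
  · simp [cuspDiv, ord_uEl_cuspInfty, h0]
  · rw [ord_uEl_eq_zero N (ord_jEl_nonneg N h0 hi)]
    simp [cuspDiv, h0.symm, hi.symm]

end Fermat.Agent.CuspidalC
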