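import Fermat.Agent.CuspidalC.Unit
import Fermat.Prelude.Def_ModularCurve_ArithmeticGalois

/-!
# The cuspidal class `C = [(0) - (∞)]` on `J₀(N)`, `N` prime

It is fixed by `Gal(ℚ̄/ℚ)` and killed by `N - 1`.
-/

set_option autoImplicit false

noncomputable section

open AlgebraicCurve
open Fermat.Agent.ModCurveGenus
open ModularCurve (coeffMap coeffEmb arithmeticGalois modularFunctionFieldFull JZero)

namespace Fermat.Agent.CuspidalC

variable (N : ℕ) [NeZero N]

variable [hN : Fact N.Prime]

/-- The class of `(0) - (∞)`. -/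
def cuspClass : JZero N := Pic0.mk ⟨cuspDiv N, degree_cuspDiv N⟩

/-- A multiple of `(0) - (∞)` has zero class iff it is a principal divisor. -/
theorem zsmul_cuspClass_eq_zero_iff (m : ℤ) :
    m • cuspClass N = 0 ↔ ∃ f : FN N, f ≠ 0 ∧ ∀ v, v.ord f = m * cuspDiv N v := by
  have h : m • cuspClass N = QuotientAddGroup.mk (m • ⟨cuspDiv N, degree_cuspDiv N⟩) := rfl
  rw [h, QuotientAddGroup.eq_zero_iff, AddSubgroup.mem_addSubgroupOf, AddSubgroupClass.coe_zsmul,
    Divisor.mem_principal]
  refine exists_congr fun f => and_congr_right fun _ => forall_congr' fun v => ?_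
  rw [Finsupp.smul_apply, smul_eq_mul]
  exact eq_comm

/-- `(N - 1) C = 0`. -/
theorem pred_nsmul_cuspClass : (N - 1) • cuspClass N = 0 := by
  rw [← natCast_zsmul, zsmul_cuspClass_eq_zero_iff]
  exact ⟨uEl N, uEl_ne_zero N, fun v => by rw [ord_uEl, Nat.cast_sub hN.out.one_le, Nat.cast_one]⟩

end Fermat.Agent.CuspidalC
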