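import Fermat.Agent.MW.Modular.SeriesPlace
import Fermat.Agent.ModCurveGenus.Genus
import Fermat.Agent.Hecke.Inputs

/-!
# The two cusps of `X₀(N)` for prime `N`

The `q`-order place `cuspInfty` of the function field, and the only other pole `cuspZero` of `j`,
of ramification index `N`.
-/

set_option autoImplicit false

noncomputable section

open AlgebraicCurve (Place)
open Fermat.Agent.ModCurveGenus Fermat.Agent.MW.Modular

namespace Fermat.Agent.CuspidalC

variable (N : ℕ) [NeZero N]

/-- The expansion of `j` at `∞`. -/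
theorem coe_jEl : ((jEl N : FN N) : LaurentSeries Qb) = ModularCurve.coeffEmb Qb ModularCurve.jq := by
  show ModularCurve.coeffEmb Qb (ModularCurve.qExpand ℚ 1 ModularCurve.jq) = _
  rw [ModularCurve.qExpand_one_apply]

/-- `j` has a simple pole at `∞`. -/
theorem order_jEl : ((jEl N : FN N) : LaurentSeries Qb).order = -1 := by
  have h1 : ((jEl N : FN N) : LaurentSeries Qb).coeff (-1) = 1 := by
    rw [coe_jEl, ModularCurve.coeffEmb, ModularCurve.coeffMap_coeff, ModularCurve.coeff_jq_neg_one,
      map_one]
  refine le_antisymm (HahnSeries.order_le_of_coeff_ne_zero (by rw [h1]; exact one_ne_zero))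
    (le_of_not_gt fun hlt => ?_)
  have hne : ((jEl N : FN N) : LaurentSeries Qb) ≠ 0 := fun h => by simp [h] at h1
  refine HahnSeries.coeff_order_eq_zero.not.mpr hne ?_
  rw [coe_jEl] at hlt ⊢
  generalize (ModularCurve.coeffEmb Qb ModularCurve.jq).order = k at hlt ⊢
  rw [ModularCurve.coeffEmb, ModularCurve.coeffMap_coeff, ModularCurve.coeff_jq_of_lt hlt,
    map_zero]

instance hasSimplePole_modular : HasSimplePole (ModularCurve.modularFunctionFieldBar N) :=
  ⟨⟨jEl N, order_jEl N⟩⟩

/-- The cusp at infinity: the order in `q`. -/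
def cuspInfty : Place Qb (FN N) := qPlace (ModularCurve.modularFunctionFieldBar N)

/-- The valuation at `∞` is the order of the `q`-expansion. -/
theorem ord_cuspInfty (f : FN N) : (cuspInfty N).ord f = (f : LaurentSeries Qb).order :=
  ord_qPlace f

theorem ord_jEl_cuspInfty : (cuspInfty N).ord (jEl N) = -1 := by
  rw [ord_cuspInfty, order_jEl]

/-- `j ≠ 0`. -/
theorem jEl_ne_zero : jEl N ≠ 0 := fun h => jEl_transcendental N (h ▸ isAlgebraic_zero)

/-- All places of the function field over `ℚ̄` have degree one. -/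
theorem deg_place (v : Place Qb (FN N)) : v.deg = 1 :=
  FFPlaces.deg_eq_one' (finiteOverGen_FN N) v

omit [NeZero N] in
/-- `X₀(N)` has two cusps for prime `N`. -/
theorem cuspCount_prime (hN : N.Prime) : ModularCurve.cuspCount N = 2 := by
  rw [ModularCurve.cuspCount, hN.divisors, Finset.sum_pair hN.one_lt.ne]
  simp [Nat.div_self hN.pos]

omit [NeZero N] in
theorem dedekindPsi_prime' (hN : N.Prime) : ModularCurve.dedekindPsi N = N + 1 := by
  simpa using Gamma0Cosets.dedekindPsi_prime_pow hN one_pos

variable [hN : Fact N.Prime]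

/-- Besides `∞`, exactly one place is a pole of `j`; it has pole order `N`. -/
theorem exists_cuspZero :
    ∃ w : Place Qb (FN N), w ≠ cuspInfty N ∧ w.ord (jEl N) = -(N : ℤ) ∧
      ∀ v : Place Qb (FN N), v.ord (jEl N) < 0 → v = cuspInfty N ∨ v = w := by
  classical
  have hmem : cuspInfty N ∈ poleSet N := by
    rw [mem_poleSet, ord_jEl_cuspInfty]; norm_num
  have hcard : ((poleSet N).erase (cuspInfty N)).card = 1 := by
    rw [Finset.card_erase_of_mem hmem, card_poleSet, cuspCount_prime N hN.out]
  obtain ⟨w, hw⟩ := Finset.card_eq_one.mp hcard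
  have hw' : w ∈ (poleSet N).erase (cuspInfty N) := hw ▸ Finset.mem_singleton_self w
  refine ⟨w, (Finset.mem_erase.mp hw').1, ?_, fun v hv => ?_⟩
  · have h := sum_poleSet N
    rw [← Finset.add_sum_erase _ _ hmem, hw, Finset.sum_singleton, ord_jEl_cuspInfty,
      dedekindPsi_prime' N hN.out] at h
    push_cast at h
    linarith
  · rcases eq_or_ne v (cuspInfty N) with h | h
    · exact Or.inl h
    · refine Or.inr (Finset.mem_singleton.mp (hw ▸ ?_))
      exact Finset.mem_erase.mpr ⟨h, (mem_poleSet N v).mpr hv⟩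

/-- The cusp `0`: the pole of `j` other than `cuspInfty`. -/
def cuspZero : Place Qb (FN N) := (exists_cuspZero N).choose

/-- The cusps `0` and `∞` are distinct. -/
theorem cuspZero_ne : cuspZero N ≠ cuspInfty N := (exists_cuspZero N).choose_spec.1

/-- `j` has exactly two poles. -/
theorem eq_cusp_of_ord_neg {v : Place Qb (FN N)} (hv : v.ord (jEl N) < 0) :
    v = cuspInfty N ∨ v = cuspZero N :=
  (exists_cuspZero N).choose_spec.2.2 v hv

/-- `j` is regular away from the two cusps. -/
theorem ord_jEl_nonneg {v : Place Qb (FN N)} (h0 : v ≠ cuspZero N) (hi : v ≠ cuspInfty N) :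
    0 ≤ v.ord (jEl N) :=
  le_of_not_gt fun h => (eq_cusp_of_ord_neg N h).elim hi h0

end Fermat.Agent.CuspidalC
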