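import Fermat.Agent.CuspidalC.Class
import Fermat.Agent.Hecke.Degree
import Fermat.Prelude.Def_ModularCurve_HeckeModule

/-!
# `T_q C = (q + 1) C` for primes `q ≠ N`

The norm of `Δ(q)/Δ(q^N)` along the Hecke correspondence is its `(q + 1)`-st power, because
`Δ(t^{q²}) ∏ Δ(ζⁱ t)` is a constant times `Δ(t^q)^(q+1)`.
-/

set_option autoImplicit false

noncomputable section

open AlgebraicCurve
open Fermat.Agent.ModCurveGenus Fermat.Agent.ModularFunctionField
open ModularCurve (coeffMap coeffEmb qExpand modularFunctionFieldFull JZero)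
open UpperHalfPlane
open scoped MatrixGroups Polynomial Manifold

namespace Fermat.Agent.CuspidalC

variable (q : ℕ) [NeZero q]

theorem prod_tri_eq {α : Type*} [CommMonoid α] (hq : q.Prime) (g : Tri q → α) :
    ∏ M : Tri q, g M = g Tri.top *
      ∏ i : Fin q, g (Tri.mk 1 i q (one_mul q) i.2 (by simp)) := by
  let e : Option (Fin q) → Tri q := fun o =>
    o.elim Tri.top fun i => Tri.mk 1 i q (one_mul q) i.2 (by simp)
  have he : Function.Bijective e := by
    refine ⟨fun o o' h => ?_, fun M => ?_⟩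
    · have ha := congrArg Tri.a h
      have hb := congrArg Tri.b h
      rcases o with _ | i <;> rcases o' with _ | j
      · rfl
      · exact absurd ha hq.one_lt.ne'
      · exact absurd ha hq.one_lt.ne
      · exact congrArg some (Fin.ext hb)
    · rcases hq.eq_one_or_self_of_dvd _ (Dvd.intro M.d M.a_mul_d) with ha | ha
      · have hd : M.d = q := by simpa [ha] using M.a_mul_d
        exact ⟨some ⟨M.b, M.b_lt.trans_eq hd⟩, Tri.ext' ha.symm rfl hd.symm⟩
      · have hd : M.d = 1 := Nat.eq_of_mul_eq_mul_left hq.pos (by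
          have := M.a_mul_d; rw [ha] at this; rw [mul_one]; exact this)
        have hb : M.b = 0 := by have := M.b_lt; omega
        exact ⟨none, Tri.ext' ha.symm hb.symm hd.symm⟩
  rw [← he.prod_comp g, Fintype.prod_option]
  rfl

theorem prod_eq_C_of_family {m N : ℕ} [NeZero m] [NeZero N] {R : Type*} [CommRing R]
    [IsDomain R] (ι : R →+* ℂ) (hι : Function.Injective ι) (F G : Tri m → ℍ → ℂ)
    (s t : Tri m → LaurentSeries R)
    (holF : ∀ M, MDiff (F M)) (holG : ∀ M, MDiff (G M))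
    (hF : ∀ M, HasExp N (F M) (coeffMap ι (s M))) (hG : ∀ M, HasExp N (G M) (coeffMap ι (t M)))
    (hFγ : ∀ (γ : SL(2, ℤ)) (M : Tri m) (τ : ℍ), F M (γ • τ) = F (Tri.act γ M) τ)
    (hGγ : ∀ (γ : SL(2, ℤ)) (M : Tri m) (τ : ℍ), G M (γ • τ) = G (Tri.act γ M) τ)
    {c : R} (hc : c ≠ 0) (hst : ∀ M, s M * t M = HahnSeries.C c) :
    ∃ r : R, ∏ M, s M = HahnSeries.C r := by
  obtain ⟨P, -, -, hP, -⟩ := exists_familyPoly ι hι F s holF hF hFγ
  obtain ⟨Q, -, -, hQ, -⟩ := exists_familyPoly ι hι G t holG hG hGγ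
  have hcoeff : ∀ (P : Polynomial R[X]) (s : Tri m → LaurentSeries R),
      P.map (evalJT R N) = ∏ M, (Polynomial.X - Polynomial.C (s M)) →
        evalJT R N (P.coeff 0) = ∏ M, -s M := by
    intro P s h
    rw [← Polynomial.coeff_map, h, Polynomial.coeff_zero_eq_eval_zero, Polynomial.eval_prod]
    simp
  have hprod : evalJT R N (P.coeff 0 * Q.coeff 0)
      = evalJT R N (Polynomial.C (c ^ Fintype.card (Tri m))) := by
    rw [map_mul, hcoeff P s hP, hcoeff Q t hQ, ← Finset.prod_mul_distrib, evalJT_C]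
    simp [hst]
  have hdeg : (P.coeff 0).natDegree = 0 := by
    have h := congrArg Polynomial.natDegree (evalJT_injective N hprod)
    rw [Polynomial.natDegree_C] at h
    have hne : P.coeff 0 * Q.coeff 0 ≠ 0 := by
      rw [evalJT_injective N hprod, Ne, Polynomial.C_eq_zero]
      exact pow_ne_zero _ hc
    rw [Polynomial.natDegree_mul (left_ne_zero_of_mul hne) (right_ne_zero_of_mul hne)] at h
    omega
  refine ⟨(-1) ^ Fintype.card (Tri m) * (P.coeff 0).coeff 0, ?_⟩
  rw [map_mul, ← evalJT_C N ((P.coeff 0).coeff 0), ← Polynomial.eq_C_of_natDegree_eq_zero hdeg,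
    hcoeff P s hP, Finset.prod_neg, map_pow, map_neg, map_one, Finset.card_univ, ← mul_assoc,
    ← mul_pow, neg_one_mul, neg_neg, one_pow, one_mul]

/-- `Δ(t^{q²}) ∏_i Δ(ζⁱ t) = c Δ(t^q)^(q+1)`. -/
theorem exists_delta_prod (hq : q.Prime) :
    ∃ (z : Qbˣ) (c : Qb), IsPrimitiveRoot z q ∧ c ≠ 0 ∧
      qExpand Qb (q * q) (deltaC Qb) * ∏ i ∈ Finset.range q, twist (z ^ i) (deltaC Qb)
        = HahnSeries.C c * qExpand Qb q (deltaC Qb) ^ (q + 1) := by
  obtain ⟨z, hz⟩ := exists_rootUnit_preimage q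
  have hz' : IsPrimitiveRoot z q := by
    refine IsPrimitiveRoot.of_map_of_injective
      (f := Units.map (iotaC : Qb →* ℂ)) ?_ (Units.map_injective iotaC_injective)
    rw [hz]
    exact isPrimitiveRoot_rootUnit q
  have hexp : ∀ M : Tri q, HasExp q (unitFun M) (coeffMap iotaC (unitSeries z 1 q M)) :=
    fun M => by rw [coeffMap_unitSeries, hz]; exact hasExp_unitFun 1 (mul_one q) M
  have hexp' : ∀ M : Tri q, HasExp q (unitInvFun M) (coeffMap iotaC (unitInvSeries z 1 q M)) :=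
    fun M => by rw [coeffMap_unitInvSeries, hz]; exact hasExp_unitInvFun 1 (mul_one q) M
  have hq0 : (q : Qb) ≠ 0 := Nat.cast_ne_zero.mpr (NeZero.ne q)
  obtain ⟨r, hr⟩ := prod_eq_C_of_family iotaC iotaC_injective unitFun unitInvFun
    (fun M => unitSeries z 1 q M) (fun M => unitInvSeries z 1 q M) mdiff_unitFun mdiff_unitInvFun
    hexp hexp' unitFun_smul unitInvFun_smul (pow_ne_zero 12 hq0)
    (unitSeries_mul_unitInvSeries z 1 q)
  set D := deltaC Qb
  set E := qExpand Qb q (deltaInvC Qb)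
  have hED : qExpand Qb q D * E = 1 := by rw [← map_mul, deltaC_mul_deltaInvC, map_one]
  have htop : unitSeries z 1 q (Tri.top : Tri q)
      = HahnSeries.C ((q : Qb) ^ 12) * qExpand Qb (q * q) D * E := by
    rw [unitSeries, rootSubst_top, top_a_eq]
    rw [ModularCurve.qExpand_congr (R := Qb) (show q * q * 1 = q * q by rw [mul_one])]
  have hone : ∀ i : Fin q, unitSeries z 1 q (Tri.mk 1 i q (one_mul q) i.2 (by simp) : Tri q)
      = twist (z ^ (i : ℕ)) D * E := by
    intro i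
    rw [unitSeries]
    congr 1
    show HahnSeries.C (((1 : ℕ) : Qb) ^ 12) * subst (z ^ ((i : ℕ) * 1 * 1)) (1 * 1 * 1) D = _
    rw [Nat.cast_one, one_pow, map_one, one_mul,
      subst_congr (v := z ^ (i : ℕ)) (l := 1) (by simp) (by simp)]
    rw [subst_apply, ModularCurve.qExpand_one_apply]
  rw [prod_tri_eq q hq, htop, Finset.prod_congr rfl fun i _ => hone i, Finset.prod_mul_distrib,
    Finset.prod_const, Finset.card_univ, Fintype.card_fin] at hr
  set P := qExpand Qb (q * q) D * ∏ i ∈ Finset.range q, twist (z ^ i) D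
  have hX : HahnSeries.C ((q : Qb) ^ 12) * P * E ^ (q + 1) = HahnSeries.C r := by
    rw [← hr, Fin.prod_univ_eq_prod_range (fun i => twist (z ^ i) D) q]
    simp only [P]
    ring
  have hX0 : P ≠ 0 := by
    refine mul_ne_zero ((map_ne_zero_iff _ (ModularCurve.qExpand_injective (R := Qb) (q * q))).mpr
      (left_ne_zero_of_mul_eq_one (deltaC_mul_deltaInvC Qb))) ?_
    exact Finset.prod_ne_zero_iff.mpr fun i _ => (map_ne_zero_iff _ (twist_injective _)).mpr
      (left_ne_zero_of_mul_eq_one (deltaC_mul_deltaInvC Qb))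
  have hr0 : r ≠ 0 := by
    rintro rfl
    rw [map_zero] at hX
    exact mul_ne_zero (mul_ne_zero ((_root_.map_ne_zero _).mpr (pow_ne_zero 12 hq0)) hX0)
      (pow_ne_zero _ (right_ne_zero_of_mul_eq_one hED)) hX
  refine ⟨z, r / (q : Qb) ^ 12, hz', div_ne_zero hr0 (pow_ne_zero 12 hq0), ?_⟩
  have hC : (HahnSeries.C r : LaurentSeries Qb)
      = HahnSeries.C ((q : Qb) ^ 12) * HahnSeries.C (r / (q : Qb) ^ 12) := by
    rw [← map_mul, mul_div_cancel₀ r (pow_ne_zero 12 hq0)]
  refine mul_left_cancel₀ ((_root_.map_ne_zero _).mpr (pow_ne_zero 12 hq0) :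
    (HahnSeries.C ((q : Qb) ^ 12) : LaurentSeries Qb) ≠ 0) ?_
  have key : HahnSeries.C ((q : Qb) ^ 12) * P = HahnSeries.C r * qExpand Qb q D ^ (q + 1) := by
    rw [← hX, mul_assoc, ← mul_pow, mul_comm E, hED, one_pow, mul_one]
  rw [key, hC, mul_assoc]

variable {q}

theorem prod_twist_perm {z : Qbˣ} (hz : IsPrimitiveRoot z q) {N : ℕ} (hN : q.Coprime N)
    (x : LaurentSeries Qb) :
    ∏ i ∈ Finset.range q, twist ((z ^ i) ^ N) x = ∏ i ∈ Finset.range q, twist (z ^ i) x := by
  have hpos := Nat.pos_of_ne_zero (NeZero.ne q)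
  have hmaps : ∀ i ∈ Finset.range q, i * N % q ∈ Finset.range q :=
    fun i _ => Finset.mem_range.mpr (Nat.mod_lt _ hpos)
  have hinj : Set.InjOn (fun i => i * N % q) (Finset.range q : Set ℕ) := by
    intro i hi j hj h
    simp only [Finset.coe_range, Set.mem_Iio] at hi hj
    have h' : i ≡ j [MOD q] := Nat.ModEq.cancel_right_of_coprime hN h
    rwa [Nat.ModEq, Nat.mod_eq_of_lt hi, Nat.mod_eq_of_lt hj] at h'
  refine Finset.prod_nbij (fun i => i * N % q) hmaps hinj
    (Finset.surjOn_of_injOn_of_card_le _ hmaps hinj le_rfl) fun i _ => ?_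
  rw [← pow_mul, ← pow_eq_pow_mod _ hz.pow_eq_one]

variable (N : ℕ) [NeZero N]

/-- The Hecke norm of the unit is its `(q + 1)`-st power. -/
theorem heckeNorm_uEl (hq : q.Prime) (hqN : ¬ q ∣ N) :
    Hecke.heckeNorm Qb N q (uEl N) = uEl N ^ (q + 1) := by
  obtain ⟨z, c, hz, hc, hD⟩ := exists_delta_prod q hq
  refine Subtype.ext (ModularCurve.qExpand_injective (R := Qb) q ?_)
  rw [Hecke.qExpand_heckeNorm N q hq hqN hz, SubmonoidClass.coe_pow, map_pow]
  show qExpand Qb (q * q) (unitSer N Qb) *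
      ∏ i ∈ Finset.range q, twist (z ^ i) (unitSer N Qb) = qExpand Qb q (unitSer N Qb) ^ (q + 1)
  set D := deltaC Qb with hDdef
  set I := deltaInvC Qb
  set Y := qExpand Qb (q * q) I * ∏ i ∈ Finset.range q, twist (z ^ i) I with hY
  have hDI : D * I = 1 := deltaC_mul_deltaInvC Qb
  have hXY : (qExpand Qb (q * q) D * ∏ i ∈ Finset.range q, twist (z ^ i) D) * Y = 1 := by
    rw [hY, mul_mul_mul_comm, ← map_mul, ← Finset.prod_mul_distrib]
    simp only [← map_mul, hDI, map_one, Finset.prod_const_one, mul_one]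
  have hYval : Y = HahnSeries.C c⁻¹ * qExpand Qb q I ^ (q + 1) := by
    refine mul_left_cancel₀ (left_ne_zero_of_mul_eq_one hXY) ?_
    rw [hXY, hD, mul_mul_mul_comm, ← map_mul, mul_inv_cancel₀ hc, map_one, one_mul, ← mul_pow,
      ← map_mul, hDI, map_one, one_pow]
  have h1 : qExpand Qb (q * q) (unitSer N Qb) *
      ∏ i ∈ Finset.range q, twist (z ^ i) (unitSer N Qb)
      = (qExpand Qb (q * q) D * ∏ i ∈ Finset.range q, twist (z ^ i) D) * qExpand Qb N Y := by
    have hp : ∏ i ∈ Finset.range q, qExpand Qb N (twist ((z ^ i) ^ N) I)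
        = ∏ i ∈ Finset.range q, qExpand Qb N (twist (z ^ i) I) := by
      rw [← map_prod, ← map_prod, prod_twist_perm hz (hq.coprime_iff_not_dvd.mpr hqN)]
    simp only [unitSer, map_mul, Finset.prod_mul_distrib, twist_qExpand]
    rw [hp, hY, map_mul, map_prod, Hecke.qExpand_comm (q * q) N]
    ring
  rw [h1, hD, hYval, map_mul, ModularCurve.qExpand_C, map_pow, unitSer, map_mul, mul_pow,
    Hecke.qExpand_comm q N, mul_mul_mul_comm, ← map_mul, mul_inv_cancel₀ hc, map_one, one_mul]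

variable [hN : Fact N.Prime]

/-- `T_q C = (q + 1) C` for a prime `q ≠ N`. -/
theorem heckeOperatorBar_cuspClass (q : Nat.Primes) (hqN : (q : ℕ) ≠ N) :
    ModularCurve.heckeOperatorBar N q (cuspClass N) = ((q : ℕ) + 1) • cuspClass N := by
  have : NeZero (q : ℕ) := ⟨q.2.ne_zero⟩
  have hqN' : ¬ (q : ℕ) ∣ N := fun h =>
    (hN.out.eq_one_or_self_of_dvd _ h).elim q.2.one_lt.ne' hqN
  obtain ⟨hα, hβ, hP, hfin, hFI, hNF, heq⟩ := Hecke.heckeOperatorAlong_eq_pic0 Qb N q
  rw [ModularCurve.heckeOperatorBar_apply, heq, cuspClass]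
  show ModularCurve.heckePic0Bar hα hβ hFI hfin hNF (Pic0.mk _) = _
  rw [ModularCurve.heckePic0Bar, Pic0.correspondence_mk]
  refine congrArg Pic0.mk (Subtype.ext ?_)
  show ModularCurve.heckeDivBar hα hβ (cuspDiv N) = ((q : ℕ) + 1) • cuspDiv N
  ext v
  have h := Hecke.heckeDivBar_principal hα hβ hfin hNF (uEl_ne_zero N)
    (D := ((N : ℤ) - 1) • cuspDiv N) (fun w => by rw [Finsupp.smul_apply, smul_eq_mul, ord_uEl]) v
  rw [heckeNorm_uEl N q.2 hqN', FFPlaces.ord_pow, ord_uEl, map_zsmul, Finsupp.smul_apply,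
    smul_eq_mul] at h
  rw [Finsupp.smul_apply, nsmul_eq_mul]
  have hN1 : (N : ℤ) - 1 ≠ 0 := by have := hN.out.two_le; omega
  refine mul_left_cancel₀ hN1 (h.trans ?_)
  ring

end Fermat.Agent.CuspidalC
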