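import Fermat.Agent.CuspidalC.Unit
import Fermat.Agent.ModularFunctionField.EtaProduct
import Mathlib.RingTheory.PowerSeries.Expand

/-!
# `Δ(q)/Δ(q^N)` modulo `p` is not a power of high `p`-power exponent

In characteristic `p`, `p^v`-th powers are supported on multiples of `p^v`, while
`q^(N-1) Δ(q)/Δ(q^N)` has a nonzero coefficient of `q^(p^a)` when `24 = p^a b`, `p ∤ b`.
-/

set_option autoImplicit false

noncomputable section

open Fermat.Agent.ModularFunctionField
open ModularCurve (qExpand etaProd dedekindEtaUnit dedekindEtaUnitInv coeffMap)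

namespace Fermat.Agent.CuspidalC

variable {k : Type*} [Field k] (p : ℕ) [Fact p.Prime] [CharP k p]

theorem pow_char_eq (x : LaurentSeries k) :
    haveI : NeZero p := ⟨(Fact.out : p.Prime).ne_zero⟩
    x ^ p = qExpand k p (coeffMap (frobenius k p) x) := by
  have : NeZero p := ⟨(Fact.out : p.Prime).ne_zero⟩
  have hps : ∀ f : PowerSeries k,
      qExpand k p (coeffMap (frobenius k p) (HahnSeries.ofPowerSeries ℤ k f)) =
        HahnSeries.ofPowerSeries ℤ k f ^ p := by
    intro f
    rw [← map_pow]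
    ext n
    by_cases hd : (p : ℤ) ∣ n
    · obtain ⟨m, rfl⟩ := hd
      rw [ModularCurve.qExpand_coeff_mul, ModularCurve.coeffMap_coeff]
      rcases lt_or_ge m 0 with hm | hm
      · rw [ModularCurve.ofPowerSeries_coeff_of_neg _ hm, map_zero,
          ModularCurve.ofPowerSeries_coeff_of_neg]
        exact mul_neg_of_pos_of_neg (by exact_mod_cast (Fact.out : p.Prime).pos) hm
      lift m to ℕ using hm
      have h : (f ^ p) = PowerSeries.map (frobenius k p) (PowerSeries.expand p (NeZero.ne p) f) :=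
        (MvPowerSeries.map_frobenius_expand p (NeZero.ne p) (f := f)).symm
      rw [HahnSeries.ofPowerSeries_apply_coeff, ← Nat.cast_mul,
        HahnSeries.ofPowerSeries_apply_coeff, h, PowerSeries.coeff_map, PowerSeries.coeff_expand,
        if_pos (dvd_mul_right p m), Nat.mul_div_cancel_left m (Fact.out : p.Prime).pos]
    · rw [ModularCurve.qExpand_coeff_of_not_dvd _ _ hd]
      rcases lt_or_ge n 0 with hn | hn
      · rw [ModularCurve.ofPowerSeries_coeff_of_neg _ hn]
      lift n to ℕ using hn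
      have h : (f ^ p) = PowerSeries.map (frobenius k p) (PowerSeries.expand p (NeZero.ne p) f) :=
        (MvPowerSeries.map_frobenius_expand p (NeZero.ne p) (f := f)).symm
      rw [HahnSeries.ofPowerSeries_apply_coeff, h, PowerSeries.coeff_map, PowerSeries.coeff_expand,
        if_neg (by exact_mod_cast hd), map_zero]
  obtain ⟨n, f, rfl⟩ : ∃ (n : ℤ) (f : PowerSeries k),
      x = HahnSeries.single n 1 * HahnSeries.ofPowerSeries ℤ k f :=
    ⟨x.order, LaurentSeries.powerSeriesPart x,
      (LaurentSeries.single_order_mul_powerSeriesPart x).symm⟩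
  rw [map_mul, map_mul, hps, ModularCurve.coeffMap_single, RingHom.map_one (frobenius k p), ModularCurve.qExpand_single,
    mul_pow, HahnSeries.single_pow, one_pow, nsmul_eq_mul]

/-- Coefficients of a `p^a`-th power. -/
theorem coeff_pow_char_pow (a : ℕ) (x : LaurentSeries k) :
    (∀ n : ℤ, (x ^ p ^ a).coeff ((p : ℤ) ^ a * n) = x.coeff n ^ p ^ a) ∧
      ∀ n : ℤ, ¬ ((p : ℤ) ^ a ∣ n) → (x ^ p ^ a).coeff n = 0 := by
  have : NeZero p := ⟨(Fact.out : p.Prime).ne_zero⟩
  induction a with
  | zero => simp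
  | succ a ih =>
    have key : x ^ p ^ (a + 1) = qExpand k p (coeffMap (frobenius k p) (x ^ p ^ a)) := by
      rw [pow_succ, pow_mul, pow_char_eq p]
    refine ⟨fun n => ?_, fun n hn => ?_⟩
    · rw [key, pow_succ', mul_assoc, ModularCurve.qExpand_coeff_mul, ModularCurve.coeffMap_coeff,
        ih.1, frobenius_def, ← pow_mul]
      ring_nf
    · rw [key]
      by_cases hd : (p : ℤ) ∣ n
      · obtain ⟨m, rfl⟩ := hd
        rw [ModularCurve.qExpand_coeff_mul, ModularCurve.coeffMap_coeff, ih.2, map_zero]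
        exact fun h => hn (by rw [pow_succ']; exact mul_dvd_mul_left _ h)
      · exact ModularCurve.qExpand_coeff_of_not_dvd _ _ hd

variable (N : ℕ) [NeZero N]

/-- `∏ (1 - qⁿ)/(1 - q^{Nn})`. -/
def etaRatio : PowerSeries ℤ :=
  etaProd * PowerSeries.expand N (NeZero.ne N) (etaProd.invOfUnit 1)

theorem intSeries_expand (R : Type*) [CommRing R] (f : PowerSeries ℤ) :
    intSeries R (PowerSeries.expand N (NeZero.ne N) f) = qExpand R N (intSeries R f) := by
  ext n
  by_cases hd : (N : ℤ) ∣ n
  · obtain ⟨m, rfl⟩ := hd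
    rw [ModularCurve.qExpand_coeff_mul]
    rcases lt_or_ge m 0 with hm | hm
    · rw [intSeries_coeff_of_neg _ _ hm, intSeries_coeff_of_neg _ _
        (mul_neg_of_pos_of_neg (by exact_mod_cast NeZero.pos N) hm)]
    lift m to ℕ using hm
    rw [← Nat.cast_mul, intSeries_coeff_natCast, intSeries_coeff_natCast,
      PowerSeries.coeff_expand, if_pos (dvd_mul_right N m),
      Nat.mul_div_cancel_left m (NeZero.pos N)]
  · rw [ModularCurve.qExpand_coeff_of_not_dvd _ _ hd]
    rcases lt_or_ge n 0 with hn | hn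
    · rw [intSeries_coeff_of_neg _ _ hn]
    lift n to ℕ using hn
    rw [intSeries_coeff_natCast, PowerSeries.coeff_expand, if_neg (by exact_mod_cast hd),
      Int.cast_zero]

theorem unitSer_eq (R : Type*) [CommRing R] :
    unitSer N R = HahnSeries.single (1 - (N : ℤ)) 1 * intSeries R (etaRatio N) ^ 24 := by
  have hinv : dedekindEtaUnitInv = etaProd.invOfUnit 1 ^ 24 := by
    refine (left_inv_eq_right_inv (a := dedekindEtaUnit) ?_
      ModularCurve.dedekindEtaUnit_mul_inv).symm
    rw [dedekindEtaUnit, ← mul_pow, mul_comm,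
      PowerSeries.mul_invOfUnit _ _ (by rw [ModularCurve.constantCoeff_etaProd]; rfl), one_pow]
  rw [unitSer, deltaC, deltaInvC, map_mul, ModularCurve.qExpand_single, mul_mul_mul_comm,
    HahnSeries.single_mul_single, mul_one, ← intSeries_expand, ← map_mul, ← map_pow, hinv,
    dedekindEtaUnit, map_pow, ← mul_pow, ← etaRatio, mul_neg_one, ← sub_eq_add_neg]

theorem coeff_etaProd_one : PowerSeries.coeff 1 etaProd = -1 := by
  classical
  obtain ⟨s, hs, h0⟩ := ((eventually_coeff_prod_eq 1).and (Filter.eventually_ge_atTop {0})).exists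
  rw [← hs, ← Finset.mul_prod_erase s _ (Finset.singleton_subset_iff.mp h0),
    PowerSeries.coeff_one_mul]
  have hc : ∀ n : ℕ, n ≠ 0 → PowerSeries.coeff 1 (1 - PowerSeries.X ^ (n + 1) : PowerSeries ℤ) = 0 :=
    fun n hn => by simp [PowerSeries.coeff_X_pow, hn, PowerSeries.coeff_one]
  have h1 : PowerSeries.coeff 1 (∏ n ∈ s.erase 0, (1 - PowerSeries.X ^ (n + 1) : PowerSeries ℤ))
      = 0 := by
    have hne : ∀ n ∈ s.erase 0, n ≠ 0 := fun n hn => (Finset.mem_erase.mp hn).1
    generalize s.erase 0 = t at hne ⊢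
    induction t using Finset.induction_on with
    | empty => simp [PowerSeries.coeff_one]
    | insert a t ha ih =>
      rw [Finset.prod_insert ha, PowerSeries.coeff_one_mul,
        hc a (hne a (Finset.mem_insert_self a t)),
        ih fun n hn => hne n (Finset.mem_insert_of_mem hn)]
      simp
  rw [h1]
  simp [PowerSeries.coeff_one, map_prod]

theorem coeff_etaRatio_pow (hN : 1 < N) (b : ℕ) :
    PowerSeries.coeff 1 (etaRatio N ^ b) = -(b : ℤ) := by
  have h0 : PowerSeries.constantCoeff (etaRatio N) = 1 := by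
    rw [etaRatio, map_mul, ModularCurve.constantCoeff_etaProd, PowerSeries.constantCoeff_expand,
      PowerSeries.constantCoeff_invOfUnit]
    simp
  have h1 : PowerSeries.coeff 1 (etaRatio N) = -1 := by
    rw [etaRatio, PowerSeries.coeff_one_mul, coeff_etaProd_one, PowerSeries.coeff_expand,
      if_neg (Nat.dvd_one.not.mpr hN.ne'), PowerSeries.constantCoeff_expand,
      PowerSeries.constantCoeff_invOfUnit]
    simp
  rw [PowerSeries.coeff_one_pow, h1, h0]
  simp

variable {N}

/-- `Δ(q)/Δ(q^N)` in characteristic `p` is not a scalar times a `p^v`-th power. -/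
theorem unitSer_ne_C_mul_pow (hN : 1 < N) {a b v : ℕ} (hab : p ^ a * b = 24) (hb : ¬ p ∣ b)
    (hav : a < v) (hv : p ^ v ∣ N - 1) (γ : k) (g : LaurentSeries k) :
    unitSer N k ≠ HahnSeries.C γ * g ^ p ^ v := by
  intro h
  obtain ⟨d, hd⟩ := hv
  have hNd : ((N : ℤ) - 1) = (p : ℤ) ^ v * d := by
    rw [← Nat.cast_one, ← Nat.cast_sub hN.le, hd]; push_cast; ring
  set G := intSeries k (etaRatio N ^ b)
  have hG : G.coeff 1 ≠ 0 := by
    have := intSeries_coeff_natCast k (etaRatio N ^ b) 1
    rw [Nat.cast_one] at this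
    rw [this, coeff_etaRatio_pow N hN, Int.cast_neg, neg_ne_zero, Int.cast_natCast, Ne,
      CharP.cast_eq_zero_iff k p]
    exact hb
  have hmono : HahnSeries.single ((N : ℤ) - 1) (1 : k)
      = HahnSeries.single (d : ℤ) (1 : k) ^ p ^ v := by
    rw [HahnSeries.single_pow, one_pow, hNd, nsmul_eq_mul]
    push_cast
    ring_nf
  have h2 : G ^ p ^ a = HahnSeries.C γ * (HahnSeries.single (d : ℤ) (1 : k) * g) ^ p ^ v := by
    rw [mul_pow, ← hmono, mul_left_comm, ← h, unitSer_eq, ← mul_assoc,
      HahnSeries.single_mul_single, mul_one, sub_add_sub_cancel', sub_self,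
      HahnSeries.single_zero_one, one_mul, ← map_pow, ← map_pow, ← pow_mul, mul_comm b, hab]
  have h3 := congrArg (fun s : LaurentSeries k => s.coeff ((p : ℤ) ^ a * 1)) h2
  simp only [(coeff_pow_char_pow p a G).1] at h3
  rw [HahnSeries.C_mul_eq_smul, HahnSeries.coeff_smul, (coeff_pow_char_pow p v _).2, smul_zero]
    at h3
  · exact hG (pow_eq_zero_iff (pow_ne_zero a (Fact.out : p.Prime).ne_zero) |>.mp h3)
  · rw [mul_one]
    intro hdvd
    have hdvd' : p ^ v ∣ p ^ a := by exact_mod_cast hdvd
    exact absurd ((Nat.pow_dvd_pow_iff_le_right (Fact.out : p.Prime).one_lt).mp hdvd')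
      (not_le.mpr hav)

end Fermat.Agent.CuspidalC
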