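import Fermat.Agent.CuspidalC.Class
import Fermat.Agent.CuspidalC.SeriesCharP
import Fermat.Agent.CarayolFF.Gauss
import Fermat.Agent.GaloisBasics.Place
import Mathlib.GroupTheory.OrderOfElement

/-!
# The cuspidal class has the full `p`-part of `(N-1)/gcd(N-1,12)` in its order

For a prime `p` dividing the numerator `n` of `(N-1)/12`, with `p` odd or `n` a power of `2`, no
multiple `m C` with `p ∤ m` vanishes. A relation would make `Δ(q)/Δ(q^N)` a scalar times a
`p^v`-th power, which is impossible modulo `p`.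
-/

set_option autoImplicit false

noncomputable section

open AlgebraicCurve
open Fermat.Agent.ModCurveGenus Fermat.Agent.ModularFunctionField
open Fermat.Agent.CarayolFF (intIncl intRed gaussRes gaussRing IsGaussUnit)
open ModularCurve (coeffMap coeffEmb qExpand)
open scoped IntermediateField

namespace Fermat.Agent.CuspidalC

theorem pow_dvd_sub_one {N p : ℕ} (hN : N.Prime) (hp : p.Prime)
    (hdvd : p ∣ (N - 1) / Nat.gcd (N - 1) 12)
    (h2 : p ≠ 2 ∨ ∃ r, (N - 1) / Nat.gcd (N - 1) 12 = 2 ^ r) :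
    ∃ a b : ℕ, p ^ a * b = 24 ∧ ¬ p ∣ b ∧ p ^ (a + 1) ∣ N - 1 := by
  set g := Nat.gcd (N - 1) 12 with hg
  have hg1 : g ∣ N - 1 := Nat.gcd_dvd_left _ _
  have hmul : (N - 1) / g * g = N - 1 := Nat.div_mul_cancel hg1
  have hpN : p ∣ N - 1 := hdvd.trans (Nat.div_dvd_of_dvd hg1)
  by_cases hp2 : p = 2
  · subst hp2
    obtain ⟨r, hr⟩ := h2.resolve_left (fun h => h rfl)
    have hr1 : 1 ≤ r := by
      by_contra h
      rw [hr, show r = 0 by omega] at hdvd
      norm_num at hdvd
    obtain ⟨s, rfl⟩ : ∃ s, r = s + 1 := ⟨r - 1, by omega⟩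
    refine ⟨3, 3, by norm_num, by norm_num, ?_⟩
    rw [hr, pow_succ] at hmul
    have h4 : 4 ∣ g := by
      have h2g : 2 ∣ g := Nat.dvd_gcd hpN (by norm_num)
      have : 4 ∣ N - 1 := by
        obtain ⟨c, hc⟩ := h2g
        exact ⟨2 ^ s * c, by rw [← hmul, hc]; ring⟩
      exact Nat.dvd_gcd this (by norm_num)
    obtain ⟨c, hc⟩ := h4
    have hc3 : c = 1 ∨ c = 3 := by
      have h12 : 4 * c ∣ 4 * 3 := by rw [← hc]; exact Nat.gcd_dvd_right _ _
      rcases (Nat.dvd_prime Nat.prime_three).mp (Nat.dvd_of_mul_dvd_mul_left (by norm_num) h12)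
        with h | h
      · exact Or.inl h
      · exact Or.inr h
    rcases s.eq_zero_or_pos with hs | hs
    · exfalso
      subst hs
      rcases hc3 with rfl | rfl
      · rw [hc] at hmul
        have : N = 9 := by omega
        subst this
        norm_num at hN
      · rw [hc] at hmul
        have : N = 25 := by omega
        subst this
        norm_num at hN
    · obtain ⟨t, rfl⟩ : ∃ t, s = t + 1 := ⟨s - 1, by omega⟩
      exact ⟨2 ^ t * c, by rw [← hmul, hc]; ring⟩
  · by_cases hp3 : p = 3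
    · subst hp3
      refine ⟨1, 8, by norm_num, by norm_num, ?_⟩
      obtain ⟨c, hc⟩ : 3 ∣ g := Nat.dvd_gcd hpN (by norm_num)
      obtain ⟨e, he⟩ := hdvd
      exact ⟨e * c, by rw [← hmul, he, hc]; ring⟩
    · refine ⟨0, 24, by simp, fun h => ?_, by simpa using hpN⟩
      have : (24 : ℕ) = 2 ^ 3 * 3 := by norm_num
      rw [this] at h
      rcases hp.dvd_mul.mp h with h | h
      · exact hp2 ((Nat.prime_dvd_prime_iff_eq hp Nat.prime_two).mp (hp.dvd_of_dvd_pow h))
      · exact hp3 ((Nat.prime_dvd_prime_iff_eq hp Nat.prime_three).mp h)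

variable (N : ℕ) [NeZero N]

/-- An element without zeros and poles is a constant. -/
theorem exists_eq_algebraMap_of_ord_eq_zero {h : FN N}
    (hord : ∀ v : Place Qb (FN N), v.ord h = 0) :
    ∃ c : Qb, algebraMap Qb (FN N) c = h := by
  by_cases ht : Transcendental Qb h
  · exfalso
    have := finiteOverGen_FN N h ht
    have := FFPlaces.pos_fiber (finiteOverGen_FN N) ht
    let := Fintype.ofFinite {v : Place Qb (FN N) // 0 < v.ord h}
    have hsum := FFPlaces.sum_ord_pos (finiteOverGen_FN N) ht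
    rw [Finset.sum_eq_zero fun v _ => hord v.1] at hsum
    have := Module.finrank_pos (R := Qb⟮h⟯) (M := FN N)
    omega
  · have hint : IsIntegral Qb h := (not_not.mp ht).isIntegral
    exact minpoly.mem_range_of_degree_eq_one Qb h
      (IsAlgClosed.degree_eq_one_of_irreducible Qb (minpoly.irreducible hint))

/-- The Noetherian ring of coefficients. -/
abbrev intRange : Subring Qb := (Int.castRingHom Qb).range

omit [NeZero N] in
theorem genS_coeffsIn : Set.range (genS N) ⊆ CarayolFF.coeffsIn intRange := by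
  rintro _ ⟨d, rfl⟩ n
  refine ⟨(qExpand ℤ d.1 (ModularCurve.jqModC ℤ)).coeff n, ?_⟩
  rw [genS, coeffEmb, ← ModularCurve.jqModC_rat, coeffMap_qExpand', coeffMap_jqC,
    ← ModularFunctionField.coeffMap_jqC (R := ℤ) (Int.castRingHom Qb), ← coeffMap_qExpand',
    ModularCurve.coeffMap_coeff]

theorem exists_smul_unit_FN (A : ValuationSubring Qb) {f : FN N} (hf : f ≠ 0) :
    ∃ (c : Qb) (x : LaurentSeries Qb), c ≠ 0 ∧ IsGaussUnit A x ∧
      (f : LaurentSeries Qb) = algebraMap Qb (LaurentSeries Qb) c * x := by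
  have : IsNoetherianRing intRange := isNoetherianRing_range _
  refine CarayolFF.exists_smul_unit A intRange ?_ (genS_coeffsIn N) (bar_eq_adjoin N ▸ f.2)
    (fun h => hf (Subtype.ext h))
  rintro _ ⟨n, rfl⟩
  exact intCast_mem A.toSubring n

variable [hN : Fact N.Prime]

/-- No relation `p^v d ((0) - (∞)) = div u` refines to `d ((0) - (∞))` principal. -/
theorem not_principal {p a b v d : ℕ} [hp : Fact p.Prime] (hab : p ^ a * b = 24) (hb : ¬ p ∣ b)
    (hav : a < v) (hd : p ^ v * d = N - 1) : (d : ℤ) • cuspClass N ≠ 0 := by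
  intro h
  obtain ⟨f, hf0, hf⟩ := (zsmul_cuspClass_eq_zero_iff N d).mp h
  have hNd : (N : ℤ) - 1 = (p : ℤ) ^ v * d := by
    rw [← Nat.cast_one, ← Nat.cast_sub hN.out.one_le, ← hd]; push_cast; ring
  obtain ⟨c₁, hc₁⟩ := exists_eq_algebraMap_of_ord_eq_zero N (h := uEl N / f ^ p ^ v) fun w => by
    rw [FFPlaces.ord_div w (uEl_ne_zero N) (pow_ne_zero _ hf0), FFPlaces.ord_pow, hf, ord_uEl, hNd]
    push_cast
    ring
  have hu : (uEl N : FN N) = algebraMap Qb (FN N) c₁ * f ^ p ^ v := by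
    rw [hc₁, div_mul_cancel₀ _ (pow_ne_zero _ hf0)]
  obtain ⟨A, hA⟩ := GaloisBasics.exists_liesOverPrime hp.out
  have : CharP (IsLocalRing.ResidueField A) p := GaloisBasics.residueField_charP hA hp.out
  obtain ⟨c, x, hc, hx, hfx⟩ := exists_smul_unit_FN N A hf0
  -- the unit is integral with nonzero reduction
  have hiu : intIncl A (unitSer N A) = unitSer N Qb := coeffMap_unitSer N A.subtype
  have hru : intRed A (unitSer N A) = unitSer N (IsLocalRing.ResidueField A) :=
    coeffMap_unitSer N _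
  have hred : intRed A (unitSer N A) ≠ 0 := by
    intro h0
    rw [hru] at h0
    refine unitSer_ne_C_mul_pow p hN.out.one_lt hab hb hav ⟨d, hd.symm⟩
      (0 : IsLocalRing.ResidueField A) 1 ?_
    rw [h0, map_zero, zero_mul]
  have hU : IsGaussUnit A (unitSer N Qb) :=
    ⟨hiu ▸ CarayolFF.intIncl_mem A _, by
      simp only [← hiu, CarayolFF.gaussRes_intIncl]
      exact hred⟩
  set c' := c₁ * c ^ p ^ v
  have hxk : IsGaussUnit A (x ^ p ^ v) := by
    generalize p ^ v = k
    induction k with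
    | zero => rw [pow_zero]; exact IsGaussUnit.one
    | succ k ih => rw [pow_succ]; exact ih.mul hx
  have heq : unitSer N Qb = algebraMap Qb (LaurentSeries Qb) c' * x ^ p ^ v := by
    rw [← coe_uEl, hu, MulMemClass.coe_mul, SubmonoidClass.coe_pow, hfx,
      IntermediateField.coe_algebraMap_apply, mul_pow, map_mul, map_pow, mul_assoc]
  have hc' : c' ∈ A := CarayolFF.mem_of_mul_isGaussUnit hxk (heq ▸ hU.mem)
  -- reduce
  refine unitSer_ne_C_mul_pow p hN.out.one_lt hab hb hav ⟨d, hd.symm⟩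
    (IsLocalRing.residue A ⟨c', hc'⟩) (gaussRes A ⟨x, hx.mem⟩) ?_
  have hmem : (⟨intIncl A (unitSer N A), CarayolFF.intIncl_mem A _⟩ : gaussRing A) =
      ⟨intIncl A (HahnSeries.C ⟨c', hc'⟩), CarayolFF.intIncl_mem A _⟩
        * ⟨x, hx.mem⟩ ^ p ^ v := by
    refine Subtype.ext ?_
    show intIncl A (unitSer N A) = intIncl A (HahnSeries.C ⟨c', hc'⟩) * x ^ p ^ v
    rw [hiu, heq, ← CarayolFF.algebraMap_intIncl]
  have hres := congrArg (gaussRes A) hmem
  rw [CarayolFF.gaussRes_intIncl, map_mul, map_pow, CarayolFF.gaussRes_intIncl, hru, intRed,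
    ModularFunctionField.coeffMap_C] at hres
  exact hres

/-- For `p` dividing the numerator of `(N-1)/12`, `p` odd or the numerator a power of `2`,
no multiple of the cuspidal class prime to `p` is zero. -/
theorem nsmul_cuspClass_ne_zero {p : ℕ} (hp : p.Prime)
    (hdvd : p ∣ (N - 1) / Nat.gcd (N - 1) 12)
    (h2 : p ≠ 2 ∨ ∃ r, (N - 1) / Nat.gcd (N - 1) 12 = 2 ^ r) {m : ℕ} (hm : ¬ p ∣ m) :
    m • cuspClass N ≠ 0 := by
  have : Fact p.Prime := ⟨hp⟩
  obtain ⟨a, b, hab, hb, hpow⟩ := pow_dvd_sub_one hN.out hp hdvd h2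
  have hN1 : N - 1 ≠ 0 := by have := hN.out.two_le; omega
  set v := (N - 1).factorization p with hv
  have hav : a < v :=
    Nat.lt_of_succ_le ((hp.pow_dvd_iff_le_factorization hN1).mp hpow)
  have hd : p ^ v * ((N - 1) / p ^ v) = N - 1 := Nat.mul_div_cancel' (Nat.ordProj_dvd _ _)
  intro h
  refine not_principal N hab hb hav hd ?_
  rw [natCast_zsmul, ← addOrderOf_dvd_iff_nsmul_eq_zero]
  have h1 : addOrderOf (cuspClass N) ∣ m := addOrderOf_dvd_iff_nsmul_eq_zero.mpr h
  have h2 : addOrderOf (cuspClass N) ∣ p ^ v * ((N - 1) / p ^ v) := by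
    rw [hd]; exact addOrderOf_dvd_iff_nsmul_eq_zero.mpr (pred_nsmul_cuspClass N)
  refine Nat.Coprime.dvd_of_dvd_mul_left ?_ h2
  exact Nat.Coprime.coprime_dvd_left h1 (((hp.coprime_iff_not_dvd.mpr hm).pow_left v).symm)

end Fermat.Agent.CuspidalC
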